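import Fermat.Agent.S37.QA.Defs
import Fermat.Agent.S37.Nodes
import Fermat.Agent.S28.Defs

/-!
# S37-QA skeleton (owner helper133).  Each `sorry` = one task = one file `Fermat/Agent/S37/QA/<Name>.lean`
(namespace `Fermat.Agent.S37.QA`, same theorem names, same statements).
Never import this file from a finished file.
-/

set_option autoImplicit false

noncomputable section

namespace Fermat.Agent.S37.QA.WIP

open ModularCurve Polynomial Fermat.Agent.S37.QA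

/-! ## QA-1 `Span.lean` -/

/-- the compositum `ℚ̄ F₀` is the `ℚ̄`-span of `F₀`. -/
theorem mem_span_of_mem_baseChange (F₀ : IntermediateField ℚ (LaurentSeries ℚ))
    {z : LaurentSeries Kb} (hz : z ∈ laurentBaseChange Kb F₀) :
    z ∈ Submodule.span Kb (⇑(coeffEmb Kb) '' (F₀ : Set (LaurentSeries ℚ))) := by
  sorry

/-! ## QA-2 `Descent.lean` -/

/-- Galois descent for subspaces (trace argument). -/
theorem galois_descent (V : Submodule ℚ (LaurentSeries ℚ)) (W : Submodule Kb (LaurentSeries Kb))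
    (hW : ∀ (σ : Kb →ₐ[ℚ] Kb) (z : LaurentSeries Kb), z ∈ W → coeffMap (σ : Kb →+* Kb) z ∈ W)
    {z : LaurentSeries Kb}
    (hz : z ∈ Submodule.span Kb (⇑(coeffEmb Kb) '' (V : Set (LaurentSeries ℚ)))) (hzW : z ∈ W) :
    z ∈ Submodule.span Kb (⇑(coeffEmb Kb) '' {f | f ∈ V ∧ coeffEmb Kb f ∈ W}) := by
  sorry

/-! ## QA-3 `Proj.lean` -/

/-- descent of integrality along `ℚ ⊆ ℚ̄` (coefficientwise `ℚ`-linear projection). -/
theorem integ_of_integ_coeffEmb (t f : LaurentSeries ℚ)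
    (h : Integ (RingHom.id Kb) (coeffEmb Kb t) (coeffEmb Kb f)) : Integ (RingHom.id ℚ) t f := by
  sorry

/-! ## QA-4 `Denom.lean` -/

/-- clearing denominators. -/
theorem exists_natCast_mul_integ (ℓ : ℕ) (t f : LaurentSeries ℚ) (h : Integ (RingHom.id ℚ) t f) :
    ∃ d : ℕ, d ≠ 0 ∧ Integ (GaloisRep.ratLocalizedAt ℓ).subtype t ((d : LaurentSeries ℚ) * f) := by
  sorry

/-! ## QA-5 `Reduced.lean` -/

/-- Gaussian elimination: every nonzero element of the `ℚ̄`-span of `B₀` is a constant times an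
element of the "`A`-span" `S` of `B₀` having a coefficient which is a unit. -/
theorem exists_reduced (A : ValuationSubring Kb) (ℓ : ℕ) [Fact ℓ.Prime]
    (B₀ : AddSubgroup (LaurentSeries ℚ))
    (hsmul : ∀ r ∈ GaloisRep.ratLocalizedAt ℓ, ∀ f ∈ B₀,
      algebraMap ℚ (LaurentSeries ℚ) r * f ∈ B₀)
    (h1 : ∀ f ∈ B₀, S28.IsInt ℓ f)
    (h2 : ∀ f ∈ B₀, S28.IsDivl ℓ f → ∃ g ∈ B₀, f = (ℓ : LaurentSeries ℚ) * g)
    (S : AddSubgroup (LaurentSeries Kb))
    (hS1 : ∀ f ∈ B₀, coeffEmb Kb f ∈ S)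
    (hS2 : ∀ a ∈ A, ∀ y ∈ S, algebraMap Kb (LaurentSeries Kb) a * y ∈ S)
    (hS3 : ∀ y ∈ S, ∀ k : ℤ, y.coeff k ∈ A)
    {z : LaurentSeries Kb}
    (hz : z ∈ Submodule.span Kb (⇑(coeffEmb Kb) '' (B₀ : Set (LaurentSeries ℚ)))) (hz0 : z ≠ 0) :
    ∃ c : Kb, c ≠ 0 ∧ ∃ z' ∈ S, z = algebraMap Kb (LaurentSeries Kb) c * z' ∧
      ∃ k : ℤ, z'.coeff k ∉ A.nonunits := by
  sorry

/-! ## QA-6 `Closure.lean` -/

section Closure

variable (ℓ : ℕ) [Fact ℓ.Prime] (A : ValuationSubring Kb)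
  (F₀ : IntermediateField ℚ (LaurentSeries ℚ)) (t : LaurentSeries ℚ)

theorem algebraMap_mem_of_mem_ratLocalizedAt (hA : A.LiesOverPrime ℓ) {r : ℚ}
    (hr : r ∈ GaloisRep.ratLocalizedAt ℓ) : algebraMap ℚ Kb r ∈ A := by
  sorry

theorem smul_mem_B0 {r : ℚ} (hr : r ∈ GaloisRep.ratLocalizedAt ℓ) {f : LaurentSeries ℚ}
    (hf : f ∈ B0 ℓ F₀ t) : algebraMap ℚ (LaurentSeries ℚ) r * f ∈ B0 ℓ F₀ t := by
  sorry

theorem coeffEmb_mem_SA (hA : A.LiesOverPrime ℓ) (h : QEP' ℓ F₀ t) {f : LaurentSeries ℚ}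
    (hf : f ∈ B0 ℓ F₀ t) : coeffEmb Kb f ∈ SA A F₀ t := by
  sorry

theorem smul_mem_SA {a : Kb} (ha : a ∈ A) {y : LaurentSeries Kb} (hy : y ∈ SA A F₀ t) :
    algebraMap Kb (LaurentSeries Kb) a * y ∈ SA A F₀ t := by
  sorry

/-- lifting a series with coefficients in `A`. -/
theorem exists_lift {z : LaurentSeries Kb} (h : ∀ k : ℤ, z.coeff k ∈ A) :
    ∃ y : LaurentSeries A, coeffMap A.subtype y = z := by
  sorry

end Closure

/-! ## QA-7 `Unit.lean` -/

/-- the key step of QA.1: if `b = c z'` is integral over `A[t]`, where `t` and `z'` have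
`A`-integral expansions and `z'` has a unit coefficient, then `c ∈ A`. -/
theorem mem_of_integ_mul (A : ValuationSubring Kb) {T z' : LaurentSeries Kb} {c : Kb}
    (hT : ∀ k : ℤ, T.coeff k ∈ A) (hz' : ∀ k : ℤ, z'.coeff k ∈ A)
    (hu : ∃ k : ℤ, z'.coeff k ∉ A.nonunits)
    (hint : Integ A.subtype T (algebraMap Kb (LaurentSeries Kb) c * z')) : c ∈ A := by
  sorry

/-! ## `Main.lean` (helper133) -/

section Main

variable {ℓ : ℕ} [Fact ℓ.Prime] {A : ValuationSubring Kb}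
  {F₀ : IntermediateField ℚ (LaurentSeries ℚ)} {t : LaurentSeries ℚ}

/-- STRUCTURE: an element of `ℚ̄ F₀` integral over `ℚ̄[t]` is in the `ℚ̄`-span of `B0`. -/
theorem mem_span_B0 (ℓ : ℕ) {z : LaurentSeries Kb} (hz : z ∈ laurentBaseChange Kb F₀)
    (hint : Integ (RingHom.id Kb) (coeffEmb Kb t) z) :
    z ∈ Submodule.span Kb (⇑(coeffEmb Kb) '' (B0 ℓ F₀ t : Set (LaurentSeries ℚ))) := by
  have h1 := mem_span_of_mem_baseChange F₀ hz
  have h2 := galois_descent (fieldSubmodule F₀) (intK (coeffEmb Kb t)) (by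
    intro σ z hz
    have h3 : Integ (RingHom.id Kb) (coeffMap (σ : Kb →+* Kb) (coeffEmb Kb t))
        (coeffMap (σ : Kb →+* Kb) z) :=
      Integ.map (i := RingHom.id Kb) (RingHom.id Kb) (σ : Kb →+* Kb) (σ : Kb →+* Kb) (by simp) hz
    have h4 : coeffMap (σ : Kb →+* Kb) (coeffEmb Kb t) = coeffEmb Kb t := by
      rw [coeffEmb, coeffMap_coeffMap]
      exact coeffMap_congr (Subsingleton.elim _ _) t
    rw [h4] at h3
    exact h3) h1 hint
  refine Submodule.span_le.mpr ?_ h2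
  rintro _ ⟨f, ⟨hf, hfint⟩, rfl⟩
  obtain ⟨d, hd, hdint⟩ := exists_natCast_mul_integ ℓ t f (integ_of_integ_coeffEmb t f hfint)
  have hmem : (d : LaurentSeries ℚ) * f ∈ B0 ℓ F₀ t := ⟨mul_mem (natCast_mem _ d) hf, hdint⟩
  have hd' : (d : Kb) ≠ 0 := Nat.cast_ne_zero.mpr hd
  have : coeffEmb Kb f = (d : Kb)⁻¹ • coeffEmb Kb ((d : LaurentSeries ℚ) * f) := by
    rw [map_mul, map_natCast, smul_eq_algebraMap_mul, ← mul_assoc, ← map_natCast
      (algebraMap Kb (LaurentSeries Kb)) d, ← map_mul, inv_mul_cancel₀ hd', map_one, one_mul]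
  rw [SetLike.mem_coe, this]
  exact Submodule.smul_mem _ _ (Submodule.subset_span ⟨_, hmem, rfl⟩)

theorem main2 (hA : A.LiesOverPrime ℓ) (h : QEP' ℓ F₀ t) {z : LaurentSeries Kb}
    (hz : z ∈ laurentBaseChange Kb F₀) (hz0 : z ≠ 0)
    (hint : Integ (RingHom.id Kb) (coeffEmb Kb t) z) :
    ∃ c : Kb, c ≠ 0 ∧ ∃ z' ∈ SA A F₀ t, z = algebraMap Kb (LaurentSeries Kb) c * z' ∧
      ∃ k : ℤ, z'.coeff k ∉ A.nonunits :=
  exists_reduced A ℓ (B0 ℓ F₀ t) (fun _ hr _ hf => smul_mem_B0 ℓ F₀ t hr hf) h.int h.div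
    (SA A F₀ t) (fun _ hf => coeffEmb_mem_SA ℓ A F₀ t hA h hf)
    (fun _ ha _ hy => smul_mem_SA A F₀ t ha hy) (fun _ hy => hy.2.2) (mem_span_B0 ℓ hz hint) hz0

theorem main1 (hA : A.LiesOverPrime ℓ) (ht : t ∈ F₀) (h : QEP' ℓ F₀ t) {z : LaurentSeries Kb}
    (hz : z ∈ laurentBaseChange Kb F₀) (hint : Integ A.subtype (coeffEmb Kb t) z) (k : ℤ) :
    z.coeff k ∈ A := by
  by_cases hz0 : z = 0
  · rw [hz0, HahnSeries.coeff_zero]; exact zero_mem _
  have hintK : Integ (RingHom.id Kb) (coeffEmb Kb t) z :=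
    Integ.of_comp (i' := RingHom.id Kb) A.subtype (by simpa using hint)
  obtain ⟨c, -, z', hz', rfl, hu⟩ := main2 hA h hz hz0 hintK
  have htB : t ∈ B0 ℓ F₀ t := ⟨ht, integ_self _ _⟩
  have hc : c ∈ A := mem_of_integ_mul A (coeffEmb_mem_SA ℓ A F₀ t hA h htB).2.2 hz'.2.2 hu hint
  exact (smul_mem_SA A F₀ t hc hz').2.2 k

end Main

/-! ## QA-8 `Bridge.lean` -/

section Bridge

open Fermat.Agent.S24 Fermat.Agent.S37 ModularCurve.IgusaScheme

/-- integrality over a ring with the same image as `φ`, tested after an injection `ι`. -/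
theorem isIntegralElem_iff_of_range_eq {R' P S T : Type*} [CommRing R'] [CommRing P] [CommRing S]
    [CommRing T] (ψ : R' →+* S) (φ : P →+* S) (hφ : Set.range ψ = Set.range φ)
    (ι : S →+* T) (hι : Function.Injective ι) (z : S) :
    ψ.IsIntegralElem z ↔ (ι.comp φ).IsIntegralElem (ι z) := by
  sorry

theorem isIntegralElem_closure_iff (A : ValuationSubring Kbar) (N : ℕ) (x b : FN N) :
    (Subring.closure (constSet A N ∪ {x})).subtype.IsIntegralElem b ↔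
      Integ A.subtype (x : LaurentSeries Kb) (b : LaurentSeries Kb) := by
  sorry

theorem isIntegral_adjoin_iff (N : ℕ) (x z : FN N) :
    IsIntegral (Algebra.adjoin Kbar {x}) z ↔
      Integ (RingHom.id Kb) (x : LaurentSeries Kb) (z : LaurentSeries Kb) := by
  sorry

theorem mem_chartAlg_iff' (N : ℕ) [NeZero N] (ℓ : ℕ) [Fact ℓ.Prime]
    (x f : ↥(modularFunctionFieldFull N)) :
    f ∈ chartAlg N ℓ {x} ↔
      Integ (GaloisRep.ratLocalizedAt ℓ).subtype (x : LaurentSeries ℚ) (f : LaurentSeries ℚ) := by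
  sorry

theorem qep'_of_QEP (N : ℕ) [NeZero N] (ℓ : ℕ) [Fact ℓ.Prime] (x : ↥(modularFunctionFieldFull N))
    (h : S28.QEP N ℓ (chartAlg N ℓ {x})) :
    QEP' ℓ (modularFunctionFieldFull N) (x : LaurentSeries ℚ) := by
  sorry

end Bridge

/-! ## `QAFin.lean`, `QAInf.lean` (helper133) -/

section Final

open Fermat.Agent.S24 Fermat.Agent.S37 ModularCurve.IgusaScheme

variable (A : ValuationSubring Kbar) (N : ℕ) [NeZero N] (ℓ : ℕ) [Fact ℓ.Prime]

/-- the common statement. -/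
theorem qa_common (hA : A.LiesOverPrime ℓ) (x₀ : ↥(modularFunctionFieldFull N)) (x : FN N)
    (hx : (x : LaurentSeries Kb) = coeffEmb Kb (x₀ : LaurentSeries ℚ))
    (h : S28.QEP N ℓ (chartAlg N ℓ {x₀})) :
    (∀ b : FN N, (Subring.closure (constSet A N ∪ {x})).subtype.IsIntegralElem b →
      ∃ y : LaurentSeries A, HasIntExp A N b y) ∧
    (∀ z : FN N, z ≠ 0 → IsIntegral (Algebra.adjoin Kbar {x}) z →
      ∃ (c : Kbar) (z' : FN N) (y : LaurentSeries A), c ≠ 0 ∧ z = algebraMap Kbar (FN N) c * z' ∧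
        (Subring.closure (constSet A N ∪ {x})).subtype.IsIntegralElem z' ∧ HasIntExp A N z' y ∧
          rho A y ≠ 0) := by
  have hq := qep'_of_QEP N ℓ x₀ h
  constructor
  · intro b hb
    rw [isIntegralElem_closure_iff, hx] at hb
    exact exists_lift A (main1 hA x₀.2 hq b.2 hb)
  · intro z hz0 hz
    rw [isIntegral_adjoin_iff, hx] at hz
    obtain ⟨c, hc, z', hz', hzz', k, hk⟩ := main2 (A := A) hA hq z.2
      (fun h0 => hz0 (Subtype.ext h0)) hz
    obtain ⟨y, hy⟩ := exists_lift A hz'.2.2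
    refine ⟨c, ⟨z', hz'.1⟩, y, hc, Subtype.ext hzz', ?_, hy, ?_⟩
    · rw [isIntegralElem_closure_iff, hx]
      exact hz'.2.1
    · intro h0
      apply hk
      have h1 : (rho A y).coeff k = 0 := by rw [h0, HahnSeries.coeff_zero]
      rw [coeffMap_coeff, IsLocalRing.residue_eq_zero_iff] at h1
      have h2 : ((y.coeff k : A) : Kb) = z'.coeff k := by
        rw [← hy, coeffMap_coeff]; rfl
      rw [← h2]
      exact (A.coe_mem_nonunits_iff).mpr h1

theorem qaFin (hA : A.LiesOverPrime ℓ) (h : Fermat.Agent.S28.QEP N ℓ (chartAlgFin N ℓ)) :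
    QAFin A N :=
  qa_common A N ℓ hA (jFull N) (jF N) (by
    show Jser 1 = _
    rw [Jser, qExpand_one_apply]; rfl) h

theorem qaInf (hA : A.LiesOverPrime ℓ) (h : Fermat.Agent.S28.QEP N ℓ (chartAlgInf N ℓ)) :
    QAInf A N :=
  qa_common A N ℓ hA (jFull N)⁻¹ (jF N)⁻¹ (by
    show (Jser 1)⁻¹ = coeffEmb Kb (jq⁻¹)
    rw [Jser, qExpand_one_apply, map_inv₀]) h

end Final

end Fermat.Agent.S37.QA.WIP

end
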