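import Fermat.Agent.S37.Main
import Fermat.Agent.S37.Nodes
import Fermat.Agent.S28.Defs
import Fermat.Agent.S24.Export.Ramification
import Fermat.Statements.S37

/-!
# S37 skeleton (owner helper37).  Each `sorry` = one task = one file `Fermat/Agent/S37/<Name>.lean`.
This file is never imported by `Fermat/Agent/S37.lean`.
-/

set_option autoImplicit false

noncomputable section

namespace Fermat.Agent.S37.WIP

open AlgebraicCurve ModularCurve Fermat.Agent.S24 Fermat.Agent.S37 ModularCurve.IgusaScheme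

/-! ### abstract function field nodes -/

/-- task S37-RegInt, file `RegInt.lean` -/
theorem regInt (K F : Type*) [Field K] [Field F] [Algebra K F] [IsAlgClosed K] [FF.IsFF1 K F] :
    RegInt K F := by
  sorry

/-- task S37-ValNorm, file `ValNorm.lean` -/
theorem valNorm (K F F' : Type*) [Field K] [Field F] [Field F']
    [Algebra K F] [Algebra K F'] [Algebra F F'] [IsScalarTower K F F']
    [Algebra.IsIntegral F F'] [HasPrincipalDivisors K F'] [Module.Finite F F']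
    [IsAlgClosed K] [FF.IsFF1 K F] [FF.IsFF1 K F'] : ValNorm K F F' := by
  sorry

/-! ### q-expansion principle over `A` -/

variable (A : ValuationSubring Kbar) (N : ℕ) [NeZero N] (ℓ : ℕ) [Fact ℓ.Prime]

/-- task S37-QAFin, file `QAFin.lean` -/
theorem qaFin (hA : A.LiesOverPrime ℓ) (h : Fermat.Agent.S28.QEP N ℓ (chartAlgFin N ℓ)) :
    QAFin A N := by
  sorry

/-- task S37-QAInf, file `QAInf.lean` -/
theorem qaInf (hA : A.LiesOverPrime ℓ) (h : Fermat.Agent.S28.QEP N ℓ (chartAlgInf N ℓ)) :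
    QAInf A N := by
  sorry

/-- task S37-EVFin, file `EVFin.lean` -/
theorem evFin (hQ : QAFin A N) (hR : RegInt Kbar (FN N)) : EVFin A N := by
  sorry

/-- task S37-EVInf, file `EVInf.lean` -/
theorem evInf (hQ : QAInf A N) (hR : RegInt Kbar (FN N)) : EVInf A N := by
  sorry

/-! ### block R2 -/

/-- task S37-R2, file `RedInertia.lean` -/
theorem redInertia (hQF : QAFin A N) (hQI : QAInf A N) (hEF : EVFin A N) (hEI : EVInf A N) :
    RedInertia A N := by
  sorry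

/-! ### block R4 -/

/-- task S37-JInt, file `JInt.lean` -/
theorem jInt (M d : ℕ) [NeZero M] [NeZero d] (hd : d ∣ M) : JInt M d hd := by
  sorry

/-- task S37-ConjNorm, dir `ConjNorm/` -/
theorem conjNorm (hℓN : ¬ ℓ ∣ N) :
    haveI : NeZero ℓ := ⟨(Fact.out : ℓ.Prime).ne_zero⟩
    ConjNorm N ℓ := by
  sorry

/-- task S37-R4, dir `RedHecke/` -/
theorem redHecke (hA : A.LiesOverPrime ℓ) (hℓN : ¬ ℓ ∣ N)
    (hQF : QAFin A N) (hQI : QAInf A N) (hEF : EVFin A N) (hEI : EVInf A N)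
    (hJ : haveI : NeZero ℓ := ⟨(Fact.out : ℓ.Prime).ne_zero⟩
      JInt (N * ℓ) ℓ (dvd_mul_left ℓ N))
    (hC : haveI : NeZero ℓ := ⟨(Fact.out : ℓ.Prime).ne_zero⟩
      ConjNorm N ℓ) :
    haveI : NeZero ℓ := ⟨(Fact.out : ℓ.Prime).ne_zero⟩
    RedHecke A N ℓ := by
  sorry

/-! ### block C0 -/

/-- task S37-LFFin (KL-A machinery) -/
theorem lfFin (hA : A.LiesOverPrime ℓ) (hℓN : ¬ ℓ ∣ N) : LFFin A N := by
  sorry

/-- task S37-LFInf (KL-A machinery) -/
theorem lfInf (hA : A.LiesOverPrime ℓ) (hℓN : ¬ ℓ ∣ N) : LFInf A N := by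
  sorry

/-- task S37-C0, dir `RedConst/` -/
theorem redConst (hQF : QAFin A N) (hQI : QAInf A N) (hR : RegInt Kbar (FN N))
    (hLF : LFFin A N) (hLI : LFInf A N) : RedConst A N := by
  sorry

/-! ### inputs from other projects -/

/-- S28 -/
theorem qep_fin (hℓN : ¬ ℓ ∣ N) : Fermat.Agent.S28.QEP N ℓ (chartAlgFin N ℓ) := by
  sorry

/-- S28 -/
theorem qep_inf (hℓN : ¬ ℓ ∣ N) : Fermat.Agent.S28.QEP N ℓ (chartAlgInf N ℓ) := by
  sorry

/-- cluster GAL -/
theorem kl : Fermat.Agent.GAL.KLStatement := by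
  sorry

/-- helper105 -/
theorem heckeInputsAlong (N ℓ : ℕ) [NeZero N] [NeZero ℓ] : HeckeInputsAlong Kbar N ℓ := by
  sorry

end Fermat.Agent.S37.WIP

namespace Fermat.Agent.S37.WIP

open AlgebraicCurve ModularCurve Fermat.Agent.S24 Fermat.Agent.S37

theorem result (N p : ℕ) [NeZero N] (hcomm : ModularCurve.HeckeOperatorsCommuteBar N) : letI := ModularCurve.heckeModuleBar N; ∀ (_ : SMulCommClass (AlgebraicClosure ℚ ≃ₐ[ℚ] AlgebraicClosure ℚ) ModularCurve.HeckeAlg (ModularCurve.JZero N)), ModularCurve.SpecializationExists (K := ℚ) (L := AlgebraicClosure ℚ) N p (ModularCurve.JZero N) := by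
  have hFF : FF.IsFF1 Kbar (FN N) := Export.isFF1 N
  have hR := regInt Kbar (FN N)
  refine main_of_blocks N p hcomm (fun ℓ _ _ _ => heckeInputsAlong N ℓ) ?_ ?_ ?_
  · intro ℓ hℓ hℓN A hA
    haveI : Fact ℓ.Prime := ⟨hℓ⟩
    have hQF := qaFin A N ℓ hA (qep_fin N ℓ hℓN)
    have hQI := qaInf A N ℓ hA (qep_inf N ℓ hℓN)
    exact redInertia A N hQF hQI (evFin A N hQF hR) (evInf A N hQI hR)
  · intro ℓ _ hℓ hℓN A hA
    haveI : Fact ℓ.Prime := ⟨hℓ⟩
    have hQF := qaFin A N ℓ hA (qep_fin N ℓ hℓN)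
    have hQI := qaInf A N ℓ hA (qep_inf N ℓ hℓN)
    exact redHecke A N ℓ hA hℓN hQF hQI (evFin A N hQF hR) (evInf A N hQI hR)
      (jInt (N * ℓ) ℓ _) (conjNorm N ℓ hℓN)
  · intro ℓ hℓ hℓN A hA
    haveI : Fact ℓ.Prime := ⟨hℓ⟩
    have hQF := qaFin A N ℓ hA (qep_fin N ℓ hℓN)
    have hQI := qaInf A N ℓ hA (qep_inf N ℓ hℓN)
    exact redInj_of_redConst (redConst A N hQF hQI hR (lfFin A N ℓ hA hℓN) (lfInf A N ℓ hA hℓN))
      (fun n hn => kl N ℓ hℓN A hA n hn)

end Fermat.Agent.S37.WIP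

end
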