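import Fermat.Agent.S37.Main
import Fermat.Agent.S37.C0.Defs
import Fermat.Agent.S28.Defs
import Fermat.Agent.GAL.KLLevel

/-!
# S37 skeleton of block C0 (owner helper37).  Each `sorry` = one task.
-/

set_option autoImplicit false

noncomputable section

namespace Fermat.Agent.S37.WIP

open AlgebraicCurve ModularCurve Fermat.Agent.S24 Fermat.Agent.S37

/-! ### Sep.lean (Mathlib only) -/

/-- task S37-Sep, file `Sep.lean` -/
theorem sep_lemma {B k : Type*} [CommRing B] [Field k] [Infinite k] (m m' : (B →+* k) →₀ ℕ)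
    (S : Set (B →+* k)) (hm : ∀ e, m e ≠ 0 → e ∈ S) (hm' : ∀ e, m' e ≠ 0 → e ∈ S)
    (hsurj : ∀ e ∈ S, Function.Surjective e)
    (hker : ∀ e ∈ S, ∀ e' ∈ S, RingHom.ker e = RingHom.ker e' → e = e')
    (h : ∀ (b : B) (c : k), m.prod (fun e n => (c - e b) ^ n) = m'.prod (fun e n => (c - e b) ^ n)) :
    m = m' := by
  sorry

variable (A : ValuationSubring Kbar) (N : ℕ) [NeZero N]

/-! ### C0/Basic.lean -/

section Basic

variable {A N}

theorem mem_of_reg {y b : FN N} {P : Pl N} (hP : Reg A N y P) (hb : b ∈ BY A N y) :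
    0 ≤ P.ord b ∧ val P b ∈ A := by
  sorry

theorem evB {y : FN N} (hQ : QAY A N y) {z : FN N} {Y : LaurentSeries A} (hz : z ∈ BY A N y)
    (hY : HasIntExp A N z Y) (h0 : rho A Y = 0) {P : Pl N} (hP : Reg A N y P) :
    val P z ∈ A.nonunits := by
  sorry

theorem not_inFin_iff (P : Pl N) : ¬ InFin A N P ↔ Tube A N (jF N)⁻¹ 0 P := by
  sorry

theorem red_of_inFin {P : Pl N} (hP : InFin A N P) : red A N P = Sum.inl (eps A N (jF N) P) := by
  sorry

theorem red_of_not_inFin {P : Pl N} (hP : ¬ InFin A N P) :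
    red A N P = Sum.inr (eps A N (jF N)⁻¹ P) := by
  sorry

variable (A N)

theorem exists_hasIntExp_jF :
    ∃ Y : LaurentSeries A, HasIntExp A N (jF N) Y ∧ Transcendental (kA A) (rho A Y) := by
  sorry

theorem exists_hasIntExp_jF_inv :
    ∃ Y : LaurentSeries A, HasIntExp A N (jF N)⁻¹ Y ∧ Transcendental (kA A) (rho A Y) := by
  sorry

theorem isAlgClosed_kA : IsAlgClosed (kA A) := by
  sorry

end Basic

/-! ### C0/Tube.lean -/

/-- task S37-C0-Tube -/
theorem tubeStmt (y : FN N) (hy : Transcendental Kbar y)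
    (hYt : ∀ Y : LaurentSeries A, HasIntExp A N y Y → Transcendental (kA A) (rho A Y))
    (hQ : QAY A N y) (hR : RegInt Kbar (FN N)) : TubeStmt A N y := by
  sorry

/-! ### C0/Assemble.lean -/

/-- task S37-C0-Asm -/
theorem redConst_of_lf (hQF : QAFin A N) (hQI : QAInf A N)
    (hTF : TubeStmt A N (jF N)) (hTI : TubeStmt A N (jF N)⁻¹) (hLF : LF A N) : RedConst A N := by
  sorry

/-! ### C0/FibreCompat.lean -/

/-- task S37-C0-Fibre -/
theorem fibreCompat (r : ℕ) [NeZero r]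
    (hV : letI := algebraAlong (heckeAlphaBar Kbar N r)
      haveI := isScalarTower_along (heckeAlphaBar Kbar N r)
      haveI := isIntegral_along (heckeAlphaBar Kbar N r) (HeckeInputs.alpha_integral N r)
      haveI : Module.Finite (FN N) (FN (N * r)) := HeckeInputs.alpha_finite N r
      ValNorm Kbar (FN N) (FN (N * r))) : FibreCompat A N r := by
  sorry

/-! ### C0/Descent.lean -/

/-- task S37-C0-Descent (1) -/
theorem redDiv_pullback_eq_zero (r : ℕ) [NeZero r] (hFC : FibreCompat A N r)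
    {D : Divisor Kbar (FN N)} (hD : redDiv A N D = 0) :
    redDiv A (N * r) (Divisor.pullbackAlong (heckeAlphaBar Kbar N r)
      (HeckeInputs.alpha_integral N r) D) = 0 := by
  sorry

/-- task S37-C0-Descent (2) -/
theorem redInj_descent (r ℓ : ℕ) [NeZero r] (hFC : FibreCompat A N r) (hI : RedInj A (N * r) ℓ)
    (m : ℕ) (hm : ¬ ℓ ∣ m) (D : Divisor Kbar (FN N)) (hD : redDiv A N D = 0)
    (hmD : (m • D) ∈ Divisor.principal (K := Kbar) (F := FN N)) :
    (finrankAlong Kbar (heckeAlphaBar Kbar N r) • D) ∈ Divisor.principal (K := Kbar) (F := FN N) := by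
  sorry

/-- task S37-C0-Descent (3) -/
theorem redInj_of_good (ℓ : ℕ) (hℓ : ℓ.Prime) (hℓN : ¬ ℓ ∣ N)
    (H : ∀ (M : ℕ) [NeZero M], ¬ ℓ ∣ M → GoodBase M ℓ → RedInj A M ℓ)
    (hFC2 : FibreCompat A N 2) (hFC3 : FibreCompat A N 3) : RedInj A N ℓ := by
  sorry

/-! ### the LF block (dir `LF/`) -/

/-- block LF -/
theorem lf (M ℓ : ℕ) [NeZero M] [Fact ℓ.Prime] (hA : A.LiesOverPrime ℓ) (hℓM : ¬ ℓ ∣ M)
    (hG : GoodBase M ℓ) (hQF : QAFin A M) (hQI : QAInf A M) : LF A M := by
  sorry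

end Fermat.Agent.S37.WIP

end
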