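import Fermat.Agent.S37.LF.Glue.Defs
import Fermat.Agent.S37.LF.Abs
import Fermat.Agent.S37.LF.Param
import Fermat.Agent.S37.LF.ChartFin

/-!
# S37 skeleton of node LF-Glue (owner helper37).  Each `sorry` = one task.
-/

set_option autoImplicit false
set_option linter.unusedSectionVars false

noncomputable section

namespace Fermat.Agent.S37.Glue.WIP

open AlgebraicCurve ModularCurve Fermat.Agent.S24 Fermat.Agent.S37 IsLocalRing

variable {A : ValuationSubring Kbar} {M : ℕ} [NeZero M] {K₀ : IntermediateField ℚ Kbar}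
  {y₀ : S18.FK K₀ M} {P P' P'' : Pl M} {ϖ₀ : K₀}

/-! ### Glue/Fin.lean : finiteness -/

/-- G1 -/
theorem finiteType_Ch [FiniteDimensional ℚ K₀] (h₀ : S18.IsUnif (A0 A K₀) ϖ₀)
    (hy : Transcendental K₀ y₀) :
    @Algebra.FiniteType (A0 A K₀) (Ch A y₀) _ _ (constCh A y₀).toAlgebra := by
  sorry

/-- G2: `P` rational: its centre is a maximal ideal -/
theorem nId_isMaximal (hP : Reg A M (toB M K₀ y₀) P)
    (hval : ∀ b : Ch A y₀, ∃ a : A0 A K₀, evC hP b = incl A K₀ a) : (nId hP).IsMaximal := by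
  sorry

/-- G3: finitely many maximal ideals of the chart in the fibre of `P` -/
theorem finite_fibre [FiniteDimensional ℚ K₀] (h₀ : S18.IsUnif (A0 A K₀) ϖ₀)
    (hy : Transcendental K₀ y₀) (hP : Reg A M (toB M K₀ y₀) P)
    (hval : ∀ b : Ch A y₀, ∃ a : A0 A K₀, evC hP b = incl A K₀ a) :
    {𝔭 : Ideal (Ch A y₀) | 𝔭.IsMaximal ∧
      ∀ b : Ch A y₀, (b : S18.FK K₀ M) ∈ Po A y₀ → b ∈ nId hP → b ∈ 𝔭}.Finite := by
  sorry

/-- G4: the centre of a place in the tube of a rational place is a maximal ideal in the fibre -/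
theorem nId_tube (hP : Reg A M (toB M K₀ y₀) P)
    (hval : ∀ b : Ch A y₀, ∃ a : A0 A K₀, evC hP b = incl A K₀ a)
    (hP' : Reg A M (toB M K₀ y₀) P')
    (htube : resA A (val P' (toB M K₀ y₀)) = resA A (val P (toB M K₀ y₀))) :
    (nId hP').IsMaximal ∧
      ∀ b : Ch A y₀, (b : S18.FK K₀ M) ∈ Po A y₀ → b ∈ nId hP → b ∈ nId hP' := by
  sorry

/-! ### Glue/Rho.lean -/

/-- G5: a regular parameter has nonzero reduction -/
theorem rho_ne_zero_of_param (hQ : QAY A M (toB M K₀ y₀))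
    (hYt : ∀ Y : LaurentSeries A, HasIntExp A M (toB M K₀ y₀) Y → Transcendental (kA A) (rho A Y))
    (h₀ : S18.IsUnif (A0 A K₀) ϖ₀) (hP : Reg A M (toB M K₀ y₀) P)
    (hval : ∀ b : Ch A y₀, ∃ a : A0 A K₀, evC hP b = incl A K₀ a) (t : Ch A y₀)
    (hreg : ∀ b ∈ nId hP, ∃ s, s ∉ nId hP ∧ s * b ∈ Ideal.span {constCh A y₀ ⟨ϖ₀, h₀.mem⟩, t})
    (Y : LaurentSeries A) (hY : HasIntExp A M (toB M K₀ t) Y) : rho A Y ≠ 0 := by
  sorry

/-! ### Glue/Frac.lean -/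

/-- G6 -/
theorem exists_frac_DD [FiniteDimensional ℚ K₀] (hy : Transcendental K₀ y₀) (x : FN M) :
    ∃ a ∈ DD A y₀, ∃ b ∈ DD A y₀, b ≠ 0 ∧ x * b = a := by
  sorry

/-! ### Glue/Wrap.lean : instantiation of LF/Abs.lean -/

/-- G7 (from `lfAbs_uniq`) -/
theorem evC_eq_of_param [FiniteDimensional ℚ K₀] (h₀ : S18.IsUnif (A0 A K₀) ϖ₀)
    (hy : Transcendental K₀ y₀)
    (hP' : Reg A M (toB M K₀ y₀) P') (hP'' : Reg A M (toB M K₀ y₀) P'') (hn : nId hP'' = nId hP')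
    (t : Ch A y₀) (ht : t ∈ nId hP')
    (hres : ∀ b : Ch A y₀, ∃ a : A0 A K₀, b - constCh A y₀ a ∈ nId hP')
    (hreg : ∀ b ∈ nId hP', ∃ s, s ∉ nId hP' ∧ s * b ∈ Ideal.span {constCh A y₀ ⟨ϖ₀, h₀.mem⟩, t})
    (hte : evC hP' t = evC hP'' t) : evC hP' = evC hP'' := by
  sorry

/-- G8 (from `lfAbs_simple`) -/
theorem exists_sigma [FiniteDimensional ℚ K₀] (h₀ : S18.IsUnif (A0 A K₀) ϖ₀)
    (hy : Transcendental K₀ y₀) (hP' : Reg A M (toB M K₀ y₀) P')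
    (t : Ch A y₀) (ht : t ∈ nId hP')
    (hres : ∀ b : Ch A y₀, ∃ a : A0 A K₀, b - constCh A y₀ a ∈ nId hP')
    (hreg : ∀ b ∈ nId hP', ∃ s, s ∉ nId hP' ∧ s * b ∈ Ideal.span {constCh A y₀ ⟨ϖ₀, h₀.mem⟩, t}) :
    ∃ σ ∈ DD A y₀, val P' σ ≠ 0 ∧ ∀ z ∈ DD A y₀, val P' z = 0 → ∃ z' ∈ DD A y₀,
      σ * z = (toB M K₀ t - algebraMap Kbar (FN M) (val P' (toB M K₀ t))) * z' := by
  sorry

/-- G9: two places with the same evaluation on the chart have the same values on `DD` -/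
theorem val_eq_on_DD (hP' : Reg A M (toB M K₀ y₀) P') (hP'' : Reg A M (toB M K₀ y₀) P'')
    (h : evC hP' = evC hP'') : ∀ z ∈ DD A y₀, val P' z = val P'' z := by
  sorry

end Fermat.Agent.S37.Glue.WIP

end
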