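import Fermat.Agent.S37.LF.Defs
import Fermat.Agent.S18.Descent.DVRUnif

/-!
# S37 skeleton of block LF (owner helper37).  Each `sorry` = one task.
-/

set_option autoImplicit false

noncomputable section

namespace Fermat.Agent.S37.WIP

open AlgebraicCurve ModularCurve Fermat.Agent.S24 Fermat.Agent.S37 IsLocalRing

/-! ### LF/Abs.lean (Mathlib only) -/

section Abs

variable {A₀ C A : Type*} [CommRing A₀] [CommRing C] [CommRing A] [IsLocalRing A]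
  [Algebra A₀ C] [Algebra A₀ A] [Algebra.FiniteType A₀ C]

/-- two `A`-points of `C` in the residue disc of a regular rational point `𝔫 = (ϖ₀, t)` with the
same `t`-coordinate are equal -/
theorem lfAbs_uniq (ϖ₀ : A₀) (t : C) (𝔫 : Ideal C) (ht : t ∈ 𝔫)
    (hϖ : algebraMap A₀ A ϖ₀ ∈ maximalIdeal A)
    (hres : ∀ y : C, ∃ y₀ : A₀, y - algebraMap A₀ C y₀ ∈ 𝔫)
    (hreg : ∀ y ∈ 𝔫, ∃ s, s ∉ 𝔫 ∧ s * y ∈ Ideal.span {algebraMap A₀ C ϖ₀, t})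
    (e e' : C →ₐ[A₀] A) (he : ∀ y, y ∈ 𝔫 ↔ e y ∈ maximalIdeal A)
    (he' : ∀ y, y ∈ 𝔫 ↔ e' y ∈ maximalIdeal A) (hte : e t = e' t) : e = e' := by
  sorry

/-- the ideal of an `A`-point in the residue disc of `𝔫 = (ϖ₀, t)` is locally generated by
`t - t(point)` -/
theorem lfAbs_simple {D : Type*} [CommRing D] [Algebra A D] (ι : C →+* D)
    (hι : ∀ a : A₀, ι (algebraMap A₀ C a) = algebraMap A D (algebraMap A₀ A a))
    (hgen : Algebra.adjoin A (Set.range ι) = ⊤) (ev : D →ₐ[A] A)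
    (ϖ₀ : A₀) (t : C) (𝔫 : Ideal C) (ht : t ∈ 𝔫)
    (hϖ : algebraMap A₀ A ϖ₀ ∈ maximalIdeal A)
    (hres : ∀ y : C, ∃ y₀ : A₀, y - algebraMap A₀ C y₀ ∈ 𝔫)
    (hreg : ∀ y ∈ 𝔫, ∃ s, s ∉ 𝔫 ∧ s * y ∈ Ideal.span {algebraMap A₀ C ϖ₀, t})
    (he : ∀ y, y ∈ 𝔫 ↔ ev (ι y) ∈ maximalIdeal A) :
    ∃ σ : D, IsUnit (ev σ) ∧ ∀ z : D, ev z = 0 →
      ∃ z' : D, σ * z = (ι t - algebraMap A D (ev (ι t))) * z' := by
  sorry

/-- a local generator of the ideal of a point has order one -/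
theorem lfAbs_ord {F : Type*} [Field F] (ord : F → ℤ)
    (hmul : ∀ x y : F, x ≠ 0 → y ≠ 0 → ord (x * y) = ord x + ord y)
    (hone : ∃ u : F, u ≠ 0 ∧ ord u = 1) (D : Subring F)
    (hfrac : ∀ x : F, ∃ a ∈ D, ∃ b ∈ D, b ≠ 0 ∧ x * b = a)
    (hD : ∀ z ∈ D, z ≠ 0 → 0 ≤ ord z) (τ σ : F) (hτ : τ ∈ D) (hτ0 : τ ≠ 0) (hσ0 : σ ≠ 0)
    (hσ : ord σ = 0) (hτpos : 0 < ord τ)
    (h : ∀ z ∈ D, z ≠ 0 → 0 < ord z → ∃ z' ∈ D, σ * z = τ * z') : ord τ = 1 := by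
  sorry

/-- two discrete valuations centred at the same locally principal point are equal -/
theorem lfAbs_ord_unique {F : Type*} [Field F] (ord ord' : F → ℤ)
    (hmul : ∀ x y : F, x ≠ 0 → y ≠ 0 → ord (x * y) = ord x + ord y)
    (hmul' : ∀ x y : F, x ≠ 0 → y ≠ 0 → ord' (x * y) = ord' x + ord' y) (D : Subring F)
    (hfrac : ∀ x : F, ∃ a ∈ D, ∃ b ∈ D, b ≠ 0 ∧ x * b = a)
    (hD : ∀ z ∈ D, z ≠ 0 → 0 ≤ ord z) (hD' : ∀ z ∈ D, z ≠ 0 → 0 ≤ ord' z)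
    (hpos : ∀ z ∈ D, z ≠ 0 → (0 < ord z ↔ 0 < ord' z))
    (τ σ : F) (hτ0 : τ ≠ 0) (hσ0 : σ ≠ 0) (hσ : ord σ = 0) (hσ' : ord' σ = 0)
    (hτ : ord τ = 1) (hτ' : ord' τ = 1)
    (h : ∀ z ∈ D, z ≠ 0 → 0 < ord z → ∃ z' ∈ D, σ * z = τ * z') :
    ∀ x : F, x ≠ 0 → ord x = ord' x := by
  sorry

end Abs

/-! ### LF/Param.lean (Mathlib + S18.Abs.RegAt) -/

section Param

/-- choice of a regular parameter avoiding finitely many other maximal ideals -/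
theorem exists_param {C : Type*} [CommRing C] [IsNoetherianRing C] (π : C) (𝔫 : Ideal C)
    (h𝔫 : 𝔫.IsMaximal) (hreg : S18.Abs.RegAt π 𝔫)
    (T : Finset (Ideal C)) (hT : ∀ 𝔭 ∈ T, 𝔭.IsMaximal ∧ 𝔭 ≠ 𝔫) :
    ∃ t ∈ 𝔫, (∀ y ∈ 𝔫, ∃ s, s ∉ 𝔫 ∧ s * y ∈ Ideal.span {π, t}) ∧ ∀ 𝔭 ∈ T, t ∉ 𝔭 := by
  sorry

/-- finitely many maximal ideals over a maximal ideal in a finite extension -/
theorem finite_maximal_over {R C : Type*} [CommRing R] [CommRing C] [Algebra R C]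
    [Module.Finite R C] (𝔪 : Ideal R) (h𝔪 : 𝔪.IsMaximal) :
    {𝔭 : Ideal C | 𝔭.IsMaximal ∧ 𝔪.map (algebraMap R C) ≤ 𝔭}.Finite := by
  sorry

end Param

/-! ### LF/Transfer.lean (Mathlib + S18.Defs): comparison of local rings of two charts -/

section Transfer

variable {K₀ F : Type*} [Field K₀] [Field F] [Algebra K₀ F]

/-- Let `C₁`, `C₂` be the integral closures of `A₀[u]`, `A₀[y]`.  If `u` is regular at the maximal
ideal `𝔫₂` of `C₂` (`u = a / s`, `s ∉ 𝔫₂`) and `y = a' / s'` with `a', s' ∈ C₁`, `s'` invertible at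
`𝔫₂` (`s' * b = c` with `b, c ∈ C₂ ∖ 𝔫₂`), then regularity of `C₁` implies regularity of
`C₂` at `𝔫₂`. -/
theorem regAt_transfer (A₀ : ValuationSubring K₀) (ϖ₀ : K₀) (hϖ₀ : ϖ₀ ∈ A₀) (u y : F)
    (h₁ : RegChart A₀ ϖ₀ u 0)
    (ϖB : S18.chart A₀.toSubring y) (hϖB : (ϖB : F) = algebraMap K₀ F ϖ₀)
    (𝔫₂ : Ideal (S18.chart A₀.toSubring y)) (h𝔫₂ : 𝔫₂.IsMaximal) (hϖ : ϖB ∈ 𝔫₂)
    (hfin : ∀ z : S18.chart A₀.toSubring y, ∃ p : Polynomial K₀, p.Monic ∧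
      (∀ i, p.coeff i ∈ A₀) ∧ ∃ w ∈ 𝔫₂, (w : F) = Polynomial.aeval (z : F) p)
    (a s : S18.chart A₀.toSubring y) (hs : s ∉ 𝔫₂) (hu : u * (s : F) = a)
    (a' s' : S18.chart A₀.toSubring u) (hy : y * (s' : F) = a')
    (b c : S18.chart A₀.toSubring y) (hb : b ∉ 𝔫₂) (hc : c ∉ 𝔫₂) (hs' : (s' : F) * b = c) :
    S18.Abs.RegAt ϖB 𝔫₂ := by
  sorry

end Transfer

variable (A : ValuationSubring Kbar) (M : ℕ) [NeZero M]

/-! ### LF/Rational.lean -/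

/-- every place is rational over a number field -/
theorem exists_rational (P : Pl M) (K : IntermediateField ℚ Kbar) [FiniteDimensional ℚ K] :
    ∃ K₀ : IntermediateField ℚ Kbar, FiniteDimensional ℚ K₀ ∧ K ≤ K₀ ∧
      ∀ f : S18.FK K₀ M, 0 ≤ P.ord (toB M K₀ f) → val P (toB M K₀ f) ∈ K₀ := by
  sorry

/-! ### LF/ChartFin.lean: general facts on the integral closure of `A₀[y]` -/

section ChartFin

variable {K₀ F : Type*} [Field K₀] [CharZero K₀] [Field F] [Algebra K₀ F] [FF.IsFF1 K₀ F]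
  (A₀ : ValuationSubring K₀) (ϖ₀ : K₀) (h₀ : S18.IsUnif A₀ ϖ₀) (y : F) (hy : Transcendental K₀ y)

include h₀ hy in
/-- finitely many module generators over `A₀[y]` -/
theorem chart_finite : ∃ S : Finset F, (∀ e ∈ S, e ∈ S18.chart A₀.toSubring y) ∧
    ∀ b ∈ S18.chart A₀.toSubring y, ∃ c : F → Polynomial K₀, (∀ e i, (c e).coeff i ∈ A₀) ∧
      b = ∑ e ∈ S, Polynomial.aeval y (c e) * e := by
  sorry

include h₀ hy in
theorem chart_noetherian : IsNoetherianRing (S18.chart A₀.toSubring y) := by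
  sorry

include hy in
theorem chart_frac (x : F) : ∃ a ∈ S18.chart A₀.toSubring y, ∃ b ∈ S18.chart A₀.toSubring y,
    b ≠ 0 ∧ x * b = a := by
  sorry

end ChartFin

/-! ### LF/Glue.lean -/

/-- task S37-LF-Glue -/
theorem lfAt_of_chart (y : FN M) (hy : Transcendental Kbar y) (P : Pl M) (hP : Reg A M y P)
    (hQ : QAY A M y)
    (hYt : ∀ Y : LaurentSeries A, HasIntExp A M y Y → Transcendental (kA A) (rho A Y))
    (K₀ : IntermediateField ℚ Kbar) [FiniteDimensional ℚ K₀] (ϖ₀ : K₀)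
    (h₀ : S18.IsUnif (A0 A K₀) ϖ₀) (y₀ : S18.FK K₀ M) (hy₀ : toB M K₀ y₀ = y)
    (hrat : ∀ f : S18.FK K₀ M, 0 ≤ P.ord (toB M K₀ f) → val P (toB M K₀ f) ∈ K₀)
    (w₀ : S18.FK K₀ M) (hw₀ : val P (toB M K₀ w₀) ∈ A.nonunits)
    (hreg : RegChart (A0 A K₀) ϖ₀ y₀ w₀) : LFAt A M y P := by
  sorry

/-! ### LF/RegJ.lean -/

/-- task S37-LF-RegJ -/
theorem regChart_j (ℓ : ℕ) [Fact ℓ.Prime] (hA : A.LiesOverPrime ℓ) (hℓM : ¬ ℓ ∣ M)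
    (hG : GoodBase M ℓ) (K₀ : IntermediateField ℚ Kbar) [FiniteDimensional ℚ K₀] (ϖ₀ : K₀)
    (h₀ : S18.IsUnif (A0 A K₀) ϖ₀) (hℓA : (ℓ : K₀) / ϖ₀ ∈ A0 A K₀) :
    RegChart (A0 A K₀) ϖ₀ (S18.jK K₀ M) 0 ∧
      RegChart (A0 A K₀) ϖ₀ (S18.jK K₀ M)⁻¹ (S18.jK K₀ M)⁻¹ := by
  sorry

theorem toB_jK (K₀ : IntermediateField ℚ Kbar) : toB M K₀ (S18.jK K₀ M) = jF M := by
  sorry

/-! ### LF/Main.lean -/

theorem val_zero_mem (P : Pl M) : val P (0 : FN M) ∈ A.nonunits := by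
  sorry

theorem val_mem_of_tube_zero (P : Pl M) (hP : Tube A M (jF M)⁻¹ 0 P) :
    val P (jF M)⁻¹ ∈ A.nonunits := by
  sorry

theorem lf (ℓ : ℕ) [Fact ℓ.Prime] (hA : A.LiesOverPrime ℓ) (hℓM : ¬ ℓ ∣ M)
    (hG : GoodBase M ℓ) (hQF : QAFin A M) (hQI : QAInf A M)
    (hYj : ∀ Y : LaurentSeries A, HasIntExp A M (jF M) Y → Transcendental (kA A) (rho A Y))
    (hYi : ∀ Y : LaurentSeries A, HasIntExp A M (jF M)⁻¹ Y → Transcendental (kA A) (rho A Y)) :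
    LF A M := by
  constructor
  · intro P hP
    obtain ⟨K₀, hK₀, -, hrat⟩ := exists_rational M P ⊥
    obtain ⟨ϖ₀, h₀, hℓA⟩ := S18.exists_isUnif_comap A hA K₀
    exact lfAt_of_chart A M (jF M) (Formal.transcendental_jF M) P hP hQF hYj K₀ ϖ₀ h₀ _
      (toB_jK M K₀) hrat 0 (by rw [map_zero]; exact val_zero_mem A M P)
      (regChart_j A M ℓ hA hℓM hG K₀ ϖ₀ h₀ hℓA).1
  · intro P hP
    obtain ⟨K₀, hK₀, -, hrat⟩ := exists_rational M P ⊥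
    obtain ⟨ϖ₀, h₀, hℓA⟩ := S18.exists_isUnif_comap A hA K₀
    exact lfAt_of_chart A M (jF M)⁻¹ (FF.transcendental_inv (Formal.transcendental_jF M)) P hP.1
      hQI hYi K₀ ϖ₀ h₀ _ (by rw [map_inv₀, toB_jK]) hrat _
      (by rw [map_inv₀, toB_jK]; exact val_mem_of_tube_zero A M P hP)
      (regChart_j A M ℓ hA hℓM hG K₀ ϖ₀ h₀ hℓA).2

end Fermat.Agent.S37.WIP

end
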