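import Fermat.Agent.S37.Main
import Fermat.Agent.S37.Nodes
import Fermat.Agent.S37.Val
import Fermat.Agent.S37.Sep
import Fermat.Agent.S37.HeckeInputs.Main

/-!
# S37 skeleton of block R4 = `RedHecke` (owner helper37).  Each `sorry` = one task.
-/

set_option autoImplicit false

noncomputable section

namespace Fermat.Agent.S37.WIP

open AlgebraicCurve ModularCurve Fermat.Agent.S24 Fermat.Agent.S37 Fermat.Agent.S37.HeckeInputs

variable (A : ValuationSubring Kbar) (N : ℕ) [NeZero N] (ℓ : ℕ) [NeZero ℓ]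

/-- `α : b(q) ↦ b(q)` -/
local notation "αα" => heckeAlphaBar Kbar N ℓ
/-- `β : b(q) ↦ b(q^ℓ)` -/
local notation "ββ" => heckeBetaBar Kbar N ℓ

/-- the multiplicative Hecke operator `b ↦ Norm_β (α b)` on functions -/
def TT : FN N →* FN N := (normAlong (heckeBetaBar Kbar N ℓ)).comp
  (heckeAlphaBar Kbar N ℓ : FN N →* FN (N * ℓ))

/-- task S37-R4-Congr, file `RedHecke/Congr.lean`: Kronecker congruence for functions -/
theorem tt_congr (hℓ : ℓ.Prime) (hA : A.LiesOverPrime ℓ) (hC : ConjNorm N ℓ)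
    (φ : Kbar ≃ₐ[ℚ] Kbar) (hφ : A.IsFrobeniusAt φ ℓ) (b : FN N) (Y : LaurentSeries A)
    (hY : HasIntExp A N b Y) (c : Kbar) (hc : c ∈ A) :
    ∃ Z : LaurentSeries A, rho A Z = 0 ∧ HasIntExp A N
      (TT N ℓ (algebraMap Kbar (FN N) c - b) -
        (algebraMap Kbar (FN N) c - (gal N φ⁻¹ • b) ^ ℓ) *
          (algebraMap Kbar (FN N) c ^ ℓ - gal N φ • b)) Z := by
  sorry

/-- task S37-R4-Region, file `RedHecke/Region.lean` -/
theorem inFin_alpha_iff_beta (hJ : JInt (N * ℓ) ℓ (dvd_mul_left ℓ N)) (W : Pl (N * ℓ)) :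
    InFin A N (W.restrictAlong αα (alpha_integral N ℓ)) ↔
      InFin A N (W.restrictAlong ββ (beta_integral N ℓ)) := by
  sorry

/-- task S37-R4-Poly (finite region), file `RedHecke/Poly.lean` -/
theorem hecke_poly_fin (hℓ : ℓ.Prime) (hA : A.LiesOverPrime ℓ) (hQF : QAFin A N) (hEF : EVFin A N)
    (hJ : JInt (N * ℓ) ℓ (dvd_mul_left ℓ N)) (hC : ConjNorm N ℓ)
    (φ : Kbar ≃ₐ[ℚ] Kbar) (hφ : A.IsFrobeniusAt φ ℓ) (P : Pl N) (hP : InFin A N P)
    (b : FN N) (hb : b ∈ BFin A N) (c : Kbar) (hc : c ∈ A) :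
    ∏ W ∈ Place.fiberAlong ββ (beta_integral N ℓ) P,
      (resA A c - resA A (val (W.restrictAlong αα (alpha_integral N ℓ)) b)) ^
        W.ramificationIndexAlong ββ =
    (resA A c - resA A (val (gal N φ • P) b)) * (resA A c - resA A (val (gal N φ⁻¹ • P) b)) ^ ℓ := by
  sorry

/-- task S37-R4-Poly (region at infinity), file `RedHecke/Poly.lean` -/
theorem hecke_poly_inf (hℓ : ℓ.Prime) (hA : A.LiesOverPrime ℓ) (hQI : QAInf A N) (hEI : EVInf A N)
    (hJ : JInt (N * ℓ) ℓ (dvd_mul_left ℓ N)) (hC : ConjNorm N ℓ)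
    (φ : Kbar ≃ₐ[ℚ] Kbar) (hφ : A.IsFrobeniusAt φ ℓ) (P : Pl N) (hP : ¬ InFin A N P)
    (b : FN N) (hb : b ∈ BInf A N) (c : Kbar) (hc : c ∈ A) :
    ∏ W ∈ Place.fiberAlong ββ (beta_integral N ℓ) P,
      (resA A c - resA A (val (W.restrictAlong αα (alpha_integral N ℓ)) b)) ^
        W.ramificationIndexAlong ββ =
    (resA A c - resA A (val (gal N φ • P) b)) * (resA A c - resA A (val (gal N φ⁻¹ • P) b)) ^ ℓ := by
  sorry

/-- task S37-R4-Asm, file `RedHecke/Main.lean` -/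
theorem redHecke (hℓ : ℓ.Prime) (hA : A.LiesOverPrime ℓ)
    (hQF : QAFin A N) (hQI : QAInf A N) (hEF : EVFin A N) (hEI : EVInf A N)
    (hJ : JInt (N * ℓ) ℓ (dvd_mul_left ℓ N)) (hC : ConjNorm N ℓ) : RedHecke A N ℓ := by
  sorry

end Fermat.Agent.S37.WIP

end
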